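/-
GATE-Z (S15) / [MOD-beta] Vélu data and their covariance (helper43; sub-leaf of GZ-MODB-OUT).
Mathlib + `S05/VarChange` (`vcX`).

For a Weierstrass curve `W` and the `x`-coordinates `x k = x(k • Q)`, `k = 1, …, p - 1`, of the nonzero
points of a cyclic subgroup `⟨Q⟩` of odd prime order `p` (FULL sums over `⟨Q⟩ ∖ 0`, i.e. twice the
half-system sums `t`, `w` of Vélu):

* `tR W x = 6 x² + b₂ x + b₄`,  `wR W x = 10 x³ + 2 b₂ x² + 3 b₄ x + b₆`,  `sR = b₂ tR + 12 wR`;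
* `veluC4 W p x = c₄ + 120 ∑ tR (x k)`   (`= c₄ + 240 t`),
  `veluC6 W p x = c₆ + 252 ∑ sR (x k)`   (`= c₆ + 504 (b₂ t + 12 w)`)
  — the `c₄`, `c₆` of Vélu's model `a₄' = a₄ - 5 t`, `a₆' = a₆ - b₂ t - 7 w` of `W / ⟨Q⟩`;
* `veluJ W p x = 1728 c₄'³ / (c₄'³ - c₆'²)`  (its `j`-invariant).

COVARIANCE: under a change of variables `C`, with `x ↦ vcX C x = u² x + r` from `C • W` to `W`,
`tR`, `veluC4` have weight `4`, `sR`, `veluC6` weight `6`, and `veluJ` is INVARIANT; all of them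
commute with ring homomorphisms.
-/
import Mathlib
import Fermat.Agent.S05.VarChange

set_option autoImplicit false

namespace Fermat.Agent.GZ.Tate.Velu

open WeierstrassCurve Fermat.Agent.S05

section Defs

variable {R : Type*} [CommRing R] (W : WeierstrassCurve R)

/-- Vélu's `t_R = 6 x² + b₂ x + b₄`. -/
def tR (x : R) : R := 6 * x ^ 2 + W.b₂ * x + W.b₄

/-- Vélu's `w_R = u_R + x t_R = 10 x³ + 2 b₂ x² + 3 b₄ x + b₆`. -/
def wR (x : R) : R := 10 * x ^ 3 + 2 * W.b₂ * x ^ 2 + 3 * W.b₄ * x + W.b₆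

/-- the weight-`6` combination `b₂ t_R + 12 w_R`. -/
def sR (x : R) : R := W.b₂ * tR W x + 12 * wR W x

/-- `c₄` of Vélu's model of `W / ⟨Q⟩`, from the `x`-coordinates `x k = x(k • Q)`, `1 ≤ k < p`. -/
def veluC4 (p : ℕ) (x : ℕ → R) : R := W.c₄ + 120 * ∑ k ∈ Finset.Ico 1 p, tR W (x k)

/-- `c₆` of Vélu's model of `W / ⟨Q⟩`. -/
def veluC6 (p : ℕ) (x : ℕ → R) : R := W.c₆ + 252 * ∑ k ∈ Finset.Ico 1 p, sR W (x k)

theorem veluC4_congr {p : ℕ} {x x' : ℕ → R} (h : ∀ k, 1 ≤ k → k < p → x k = x' k) :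
    veluC4 W p x = veluC4 W p x' := by
  unfold veluC4
  congr 2
  exact Finset.sum_congr rfl fun k hk => by
    rw [Finset.mem_Ico] at hk; rw [h k hk.1 hk.2]

theorem veluC6_congr {p : ℕ} {x x' : ℕ → R} (h : ∀ k, 1 ≤ k → k < p → x k = x' k) :
    veluC6 W p x = veluC6 W p x' := by
  unfold veluC6
  congr 2
  exact Finset.sum_congr rfl fun k hk => by
    rw [Finset.mem_Ico] at hk; rw [h k hk.1 hk.2]

/-- the half-system form: for odd `p` and `x (p - k) = x k`, `veluC4 = c₄ + 240 t`. -/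
theorem veluC4_eq_half {p : ℕ} (hodd : Odd p) {x : ℕ → R}
    (hx : ∀ k, 1 ≤ k → k < p → x (p - k) = x k) :
    veluC4 W p x = W.c₄ + 240 * ∑ k ∈ Finset.Ico 1 ((p + 1) / 2), tR W (x k) := by
  obtain ⟨r, rfl⟩ := hodd
  have h1 : (2 * r + 1 + 1) / 2 = r + 1 := by omega
  unfold veluC4
  rw [h1]
  have hsplit : Finset.Ico 1 (2 * r + 1) = Finset.Ico 1 (r + 1) ∪ Finset.Ico (r + 1) (2 * r + 1) := by
    rw [Finset.Ico_union_Ico_eq_Ico (by omega) (by omega)]
  have hdisj : Disjoint (Finset.Ico 1 (r + 1)) (Finset.Ico (r + 1) (2 * r + 1)) :=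
    Finset.Ico_disjoint_Ico_consecutive _ _ _
  have hrefl : ∑ k ∈ Finset.Ico (r + 1) (2 * r + 1), tR W (x k) =
      ∑ k ∈ Finset.Ico 1 (r + 1), tR W (x k) := by
    refine Finset.sum_nbij' (fun k => 2 * r + 1 - k) (fun k => 2 * r + 1 - k) ?_ ?_ ?_ ?_ ?_
    · intro k hk; rw [Finset.mem_Ico] at hk ⊢; omega
    · intro k hk; rw [Finset.mem_Ico] at hk ⊢; omega
    · intro k hk; rw [Finset.mem_Ico] at hk; omega
    · intro k hk; rw [Finset.mem_Ico] at hk; omega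
    · intro k hk
      rw [Finset.mem_Ico] at hk
      have := hx (2 * r + 1 - k) (by omega) (by omega)
      rw [show 2 * r + 1 - (2 * r + 1 - k) = k by omega] at this
      rw [this]
  rw [hsplit, Finset.sum_union hdisj, hrefl]
  ring

end Defs

section Map

variable {R S : Type*} [CommRing R] [CommRing S] (φ : R →+* S) (W : WeierstrassCurve R)

theorem tR_map (x : R) : tR (W.map φ) (φ x) = φ (tR W x) := by
  simp only [tR, map_b₂, map_b₄, map_add, map_mul, map_pow, map_ofNat]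

theorem wR_map (x : R) : wR (W.map φ) (φ x) = φ (wR W x) := by
  simp only [wR, map_b₂, map_b₄, map_b₆, map_add, map_mul, map_pow, map_ofNat]

theorem sR_map (x : R) : sR (W.map φ) (φ x) = φ (sR W x) := by
  simp only [sR, tR_map, wR_map, map_b₂, map_add, map_mul, map_ofNat]

theorem veluC4_map (p : ℕ) (x : ℕ → R) :
    veluC4 (W.map φ) p (fun k => φ (x k)) = φ (veluC4 W p x) := by
  simp only [veluC4, tR_map, map_c₄, map_add, map_mul, map_sum, map_ofNat]

theorem veluC6_map (p : ℕ) (x : ℕ → R) :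
    veluC6 (W.map φ) p (fun k => φ (x k)) = φ (veluC6 W p x) := by
  simp only [veluC6, sR_map, map_c₆, map_add, map_mul, map_sum, map_ofNat]

end Map

section Field

variable {F : Type*} [Field F] (W : WeierstrassCurve F) (C : VariableChange F)

/-- the `j`-invariant `1728 c₄'³ / (c₄'³ - c₆'²)` of Vélu's model of `W / ⟨Q⟩`. -/
noncomputable def veluJ (p : ℕ) (x : ℕ → F) : F :=
  1728 * veluC4 W p x ^ 3 / (veluC4 W p x ^ 3 - veluC6 W p x ^ 2)

theorem veluJ_congr {p : ℕ} {x x' : ℕ → F} (h : ∀ k, 1 ≤ k → k < p → x k = x' k) :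
    veluJ W p x = veluJ W p x' := by
  unfold veluJ
  rw [veluC4_congr W h, veluC6_congr W h]

theorem veluJ_map {K : Type*} [Field K] (φ : F →+* K) (p : ℕ) (x : ℕ → F) :
    veluJ (W.map φ) p (fun k => φ (x k)) = φ (veluJ W p x) := by
  simp only [veluJ, veluC4_map, veluC6_map, map_div₀, map_mul, map_sub, map_pow, map_ofNat]

/-- `t_R` has weight `4`. -/
theorem tR_smul (x : F) : tR (C • W) x = ((C.u⁻¹ : Fˣ) : F) ^ 4 * tR W (vcX C x) := by
  have hu := vc_u_ne_zero C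
  simp only [tR, variableChange_b₂, variableChange_b₄, vc_inv_eq, vcX]
  field_simp
  ring

/-- `b₂ t_R + 12 w_R` has weight `6`. -/
theorem sR_smul (x : F) : sR (C • W) x = ((C.u⁻¹ : Fˣ) : F) ^ 6 * sR W (vcX C x) := by
  have hu := vc_u_ne_zero C
  simp only [sR, tR, wR, variableChange_b₂, variableChange_b₄, variableChange_b₆, vc_inv_eq, vcX]
  field_simp
  ring

/-- `c₄'` has weight `4`. -/
theorem veluC4_smul (p : ℕ) (x : ℕ → F) :
    veluC4 (C • W) p x = ((C.u⁻¹ : Fˣ) : F) ^ 4 * veluC4 W p (fun k => vcX C (x k)) := by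
  simp only [veluC4, tR_smul, variableChange_c₄, ← Finset.mul_sum]
  ring

/-- `c₆'` has weight `6`. -/
theorem veluC6_smul (p : ℕ) (x : ℕ → F) :
    veluC6 (C • W) p x = ((C.u⁻¹ : Fˣ) : F) ^ 6 * veluC6 W p (fun k => vcX C (x k)) := by
  simp only [veluC6, sR_smul, variableChange_c₆, ← Finset.mul_sum]
  ring

/-- **the `j`-invariant of the Vélu quotient does not depend on the model.** -/
theorem veluJ_smul (p : ℕ) (x : ℕ → F) :
    veluJ (C • W) p x = veluJ W p (fun k => vcX C (x k)) := by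
  have hu : ((C.u⁻¹ : Fˣ) : F) ≠ 0 := (C.u⁻¹).ne_zero
  unfold veluJ
  rw [veluC4_smul, veluC6_smul]
  set v := ((C.u⁻¹ : Fˣ) : F) with hv
  set A := veluC4 W p (fun k => vcX C (x k))
  set B := veluC6 W p (fun k => vcX C (x k))
  have h12 : v ^ 12 ≠ 0 := pow_ne_zero _ hu
  have e1 : 1728 * (v ^ 4 * A) ^ 3 = v ^ 12 * (1728 * A ^ 3) := by ring
  have e2 : (v ^ 4 * A) ^ 3 - (v ^ 6 * B) ^ 2 = v ^ 12 * (A ^ 3 - B ^ 2) := by ring
  rw [e1, e2, mul_div_mul_left _ _ h12]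

end Field

end Fermat.Agent.GZ.Tate.Velu
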