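/-
GATE-Z (S15) / [MOD-beta] transport of the Vélu invariant (helper43; sub-leaf of GZ-MODB-OUT).

`xOf P` = the `x`-coordinate of an affine point (`0` at the origin);
`veluJP W p P := veluJ W p (fun k => xOf (k • P))` = the `j`-invariant of Vélu's model of `W / ⟨P⟩`.

* `veluJP_map`          : `veluJP` commutes with `Point.map` (field extensions `ℚ → ℚ̄`, `ℚ → ℂ_[ℓ]`);
* `veluJP_vcPointEquiv` : `veluJP` is invariant under changes of variables (`S05.vcPointEquiv`);
* `veluJP_pointCongr`   : … and under `S05.pointCongr` (equal curves);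
* `veluJP_transport`    : `C • W = W₀` ⟹ `veluJP W₀ p (pointCongr hC ((vcPointEquiv W C).symm P)) = veluJP W p P`.

So the rational number `a' := veluJP W_ℚ p Q_ℚ` may be computed in ONE completion on the Tate curve.
-/
import Fermat.Agent.GZ.Tate.Velu.Cov

set_option autoImplicit false

namespace Fermat.Agent.GZ.Tate.Velu

open WeierstrassCurve Fermat.Agent.S05

section XOf

variable {R : Type*} [CommRing R]

/-- the `x`-coordinate of an affine point (`0` at the origin). -/
def xOf {W : WeierstrassCurve R} : W.toAffine.Point → R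
  | .zero => 0
  | .some x _ _ => x

@[simp] theorem xOf_zero {W : WeierstrassCurve R} : xOf (0 : W.toAffine.Point) = 0 := rfl

@[simp] theorem xOf_some {W : WeierstrassCurve R} {x y : R} (h : W.toAffine.Nonsingular x y) :
    xOf (Affine.Point.some x y h) = x := rfl

end XOf

section Defs

variable {F : Type*} [Field F] [DecidableEq F]

/-- the `j`-invariant of Vélu's model of `W / ⟨P⟩`, `P` of odd prime order `p`. -/
noncomputable def veluJP (W : WeierstrassCurve F) (p : ℕ) (P : W.toAffine.Point) : F :=
  veluJ W p fun k => xOf (k • P)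

/-- a point of prime order `p` has `k • P ≠ 0` for `1 ≤ k < p`. -/
theorem nsmul_ne_zero_of_prime {E : Type*} [AddCommGroup E] {p : ℕ} (hp : p.Prime) {P : E}
    (hP0 : P ≠ 0) (hP : p • P = 0) {k : ℕ} (hk1 : 1 ≤ k) (hkp : k < p) : k • P ≠ 0 := by
  intro h
  have hord : addOrderOf P = p := by
    rcases (Nat.dvd_prime hp).mp (addOrderOf_dvd_of_nsmul_eq_zero hP) with h1 | h1
    · exact absurd (AddMonoid.addOrderOf_eq_one_iff.mp h1) hP0
    · exact h1
  have hdvd : p ∣ k := hord ▸ addOrderOf_dvd_of_nsmul_eq_zero h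
  exact absurd (Nat.le_of_dvd (by omega) hdvd) (by omega)

end Defs

section Map

variable {R : Type*} {S : Type*} {F : Type*} {K : Type*} [CommRing R] [CommRing S] [Field F]
  [Field K] [Algebra R S] [Algebra R F] [Algebra S F] [IsScalarTower R S F] [Algebra R K]
  [Algebra S K] [IsScalarTower R S K] {W' : WeierstrassCurve R} (f : F →ₐ[S] K)
  [DecidableEq F] [DecidableEq K]

theorem xOf_map (P : (W'⁄F).toAffine.Point) : xOf (Affine.Point.map f P) = f (xOf P) := by
  rcases P with _ | ⟨x, y, h⟩
  · exact (map_zero f).symm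
  · rfl

theorem xOf_nsmul_map (k : ℕ) (P : (W'⁄F).toAffine.Point) :
    xOf (k • Affine.Point.map f P) = f (xOf (k • P)) := by
  rw [← map_nsmul, xOf_map]

/-- **`veluJP` commutes with field extensions.** -/
theorem veluJP_map (p : ℕ) (P : (W'⁄F).toAffine.Point) :
    veluJP (W'⁄K) p (Affine.Point.map f P) = f (veluJP (W'⁄F) p P) := by
  unfold veluJP
  have h1 : (fun k : ℕ => xOf (k • Affine.Point.map f P)) =
      fun k : ℕ => (f : F →+* K) (xOf (k • P)) := by
    funext k
    exact xOf_nsmul_map f k P
  rw [h1, ← WeierstrassCurve.map_baseChange (W := W') f]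
  exact veluJ_map (W'⁄F) (f : F →+* K) p _

end Map

section VC

variable {F : Type*} [Field F] [DecidableEq F]

theorem xOf_vcPointEquiv (W : WeierstrassCurve F) (C : VariableChange F)
    {P : (C • W).toAffine.Point} (hP : P ≠ 0) :
    xOf (vcPointEquiv W C P) = vcX C (xOf P) := by
  rcases P with _ | ⟨x, y, h⟩
  · exact absurd rfl hP
  · rw [vcPointEquiv_some, xOf_some, xOf_some]

/-- **`veluJP` is invariant under changes of variables.** -/
theorem veluJP_vcPointEquiv (W : WeierstrassCurve F) (C : VariableChange F) {p : ℕ}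
    (P : (C • W).toAffine.Point) (hP : ∀ k, 1 ≤ k → k < p → k • P ≠ 0) :
    veluJP W p (vcPointEquiv W C P) = veluJP (C • W) p P := by
  unfold veluJP
  rw [veluJ_smul]
  refine veluJ_congr W fun k hk1 hkp => ?_
  rw [← map_nsmul, xOf_vcPointEquiv W C (hP k hk1 hkp)]

theorem pointCongr_rfl {W : WeierstrassCurve F} (P : W.toAffine.Point) :
    pointCongr (rfl : W = W) P = P := by
  rcases P with _ | _ <;> rfl

theorem veluJP_pointCongr {W₁ W₂ : WeierstrassCurve F} (h : W₁ = W₂) (p : ℕ)
    (P : W₁.toAffine.Point) : veluJP W₂ p (pointCongr h P) = veluJP W₁ p P := by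
  subst h
  rw [pointCongr_rfl]

/-- **transport to another model**: if `C • W = W₀` then the Vélu invariant of `(W, ⟨P⟩)` equals
that of `(W₀, ⟨P'⟩)` for the corresponding point `P'` of `W₀`. -/
theorem veluJP_transport {W W₀ : WeierstrassCurve F} (C : VariableChange F) (hC : C • W = W₀)
    {p : ℕ} (hp : p.Prime) {P : W.toAffine.Point} (hP0 : P ≠ 0) (hP : p • P = 0) :
    veluJP W₀ p (pointCongr hC ((vcPointEquiv W C).symm P)) = veluJP W p P := by
  rw [veluJP_pointCongr]
  have h0 : (vcPointEquiv W C).symm P ≠ 0 := by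
    intro h
    apply hP0
    have := congrArg (vcPointEquiv W C) h
    rwa [AddEquiv.apply_symm_apply, map_zero] at this
  have hp' : p • (vcPointEquiv W C).symm P = 0 := by
    rw [← map_nsmul, hP, map_zero]
  rw [← veluJP_vcPointEquiv W C _ fun k hk1 hkp => nsmul_ne_zero_of_prime hp h0 hp' hk1 hkp,
    AddEquiv.apply_symm_apply]

/-- the transported point has the same order. -/
theorem transport_ne_zero {W W₀ : WeierstrassCurve F} (C : VariableChange F) (hC : C • W = W₀)
    {P : W.toAffine.Point} (hP0 : P ≠ 0) : pointCongr hC ((vcPointEquiv W C).symm P) ≠ 0 := by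
  intro h
  apply hP0
  have h1 : (vcPointEquiv W C).symm P = 0 := by
    have := congrArg (pointCongr hC).symm h
    rwa [AddEquiv.symm_apply_apply, map_zero] at this
  have := congrArg (vcPointEquiv W C) h1
  rwa [AddEquiv.apply_symm_apply, map_zero] at this

theorem transport_nsmul {W W₀ : WeierstrassCurve F} (C : VariableChange F) (hC : C • W = W₀)
    (k : ℕ) (P : W.toAffine.Point) :
    k • pointCongr hC ((vcPointEquiv W C).symm P) =
      pointCongr hC ((vcPointEquiv W C).symm (k • P)) := by
  rw [map_nsmul, map_nsmul]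

/-- the coordinates of the transported point. -/
theorem transport_some {W W₀ : WeierstrassCurve F} (C : VariableChange F) (hC : C • W = W₀)
    {x y : F} (h : W₀.toAffine.Nonsingular x y) :
    ∃ h' : W.toAffine.Nonsingular (vcX C x) (vcY C x y),
      pointCongr hC ((vcPointEquiv W C).symm (Affine.Point.some (vcX C x) (vcY C x y) h')) =
        Affine.Point.some x y h := by
  subst hC
  refine ⟨(vc_nonsingular_iff W C x y).1 h, ?_⟩
  rw [pointCongr_rfl, ← vcPointEquiv_some W C h, AddEquiv.symm_apply_apply]

end VC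

end Fermat.Agent.GZ.Tate.Velu
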