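/-
CELL-M3 (S12) / (PAIR b), the Tate-LOCAL core (helper43), binder-free.

* `veluJP_transportN`   : `veluJP` is transported along `C • W = W₀` for a point of ANY exact order
                          (`Velu/Transport.veluJP_transport` is for prime order only);
* `hord_of_addOrderOf`  : `addOrderOf (P u) = n` ⟹ `(∃ m, u^z = q^m) ↔ n ∣ z`;
* `veluJP_tate_param`   : `veluJP (tateCurve q) n (P u) = veluJ (tateCurve q) n (k ↦ X q (u^k))`;
* `veluJP_tate_cyclic`  : `= T6.jq s`, `s^M = q^N`, `N M = n`, `N = gcd(e', n)` (`u^n = q^e'`),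
                          of norm `‖s‖⁻¹`   (helper37's `T5.velu_cyclic_ev`);
* `veluJP_can`          : `u = ζ^b`, `b` prime to `n` : `veluJP = jq (q^n)`;
* `veluJP_mix`          : `n = p^(k+1)`, `u = ζ^b t₁^e`, `t₁^p = q`, `p ∤ e` : `veluJP = jq s`, `s^p = q^(p^k)`;
* `veluJP_exact_order`  : `g` of exact order `p^(k+1)` with `p • g` in the zero component:
                          [CAN] `veluJP … g = jq (q^(p^(k+1)))` or [MIX] `= jq s`, `s^p = q^(p^k)`.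

`P = T2.Final.tateP q hq0 hq1`; `K` complete ultrametric of characteristic zero.
-/
import Fermat.Agent.GZ.Tate.Velu.Transport
import Fermat.Agent.GZ.Tate.T3.CyclicN
import Fermat.Agent.GZ.Tate.T5.MixedBridge

set_option autoImplicit false

noncomputable section

namespace Fermat.Agent.GZ.Tate.Velu.LocalN

open WeierstrassCurve Fermat.Agent.GZ.Tate Fermat.Agent.GZ.Tate.T2 Fermat.Agent.GZ.Tate.T3
open Fermat.Agent.GZ.Tate.Velu Fermat.Agent.S05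

/-! ### transport at any exact order -/

section Transport

theorem nsmul_ne_zero_of_addOrderOf {E : Type*} [AddMonoid E] {n : ℕ} {P : E}
    (hord : addOrderOf P = n) {k : ℕ} (hk1 : 1 ≤ k) (hkn : k < n) : k • P ≠ 0 := by
  intro h
  have hdvd := addOrderOf_dvd_of_nsmul_eq_zero h
  rw [hord] at hdvd
  exact absurd (Nat.le_of_dvd (by omega) hdvd) (by omega)

variable {F : Type*} [Field F] [DecidableEq F]

/-- **transport to another model, any exact order.** -/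
theorem veluJP_transportN {W W₀ : WeierstrassCurve F} (C : VariableChange F) (hC : C • W = W₀)
    {n : ℕ} {P : W.toAffine.Point} (hP : ∀ k, 1 ≤ k → k < n → k • P ≠ 0) :
    veluJP W₀ n (pointCongr hC ((vcPointEquiv W C).symm P)) = veluJP W n P := by
  rw [veluJP_pointCongr]
  have hk : ∀ k, 1 ≤ k → k < n → k • (vcPointEquiv W C).symm P ≠ 0 := by
    intro k hk1 hkn h
    apply hP k hk1 hkn
    have := congrArg (vcPointEquiv W C) h
    rwa [map_nsmul, AddEquiv.apply_symm_apply, map_zero] at this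
  rw [← veluJP_vcPointEquiv W C _ hk, AddEquiv.apply_symm_apply]

end Transport

/-! ### the Tate curve -/

universe v

variable {K : Type v} [NormedField K] [IsUltrametricDist K] [CompleteSpace K] [DecidableEq K]
variable {q : K} (hq0 : q ≠ 0) (hq1 : ‖q‖ < 1)

/-- `P (u ^ z) = z • P u`. -/
theorem tateP_zpow (u : Kˣ) (z : ℤ) :
    Final.tateP q hq0 hq1 (u ^ z) = z • Final.tateP q hq0 hq1 u :=
  Core.P_zpow (Final.tateP q hq0 hq1) (Final.tateP_mul hq0 hq1) u z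

/-- the exact order of `P u` in terms of the parameter. -/
theorem hord_of_addOrderOf {n : ℕ} (u : Kˣ) (hg : addOrderOf (Final.tateP q hq0 hq1 u) = n)
    (z : ℤ) : (∃ m : ℤ, (u : K) ^ z = q ^ m) ↔ (n : ℤ) ∣ z := by
  rw [← hg, addOrderOf_dvd_iff_zsmul_eq_zero, ← tateP_zpow hq0 hq1,
    Final.tateP_eq_zero_iff hq0 hq1, Subgroup.mem_zpowers_iff]
  constructor
  · rintro ⟨m, hm⟩
    refine ⟨m, Units.ext ?_⟩
    rw [Units.val_zpow_eq_zpow_val, Units.val_mk0, Units.val_zpow_eq_zpow_val, hm]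
  · rintro ⟨m, hm⟩
    refine ⟨m, ?_⟩
    have := congrArg (fun w : Kˣ => (w : K)) hm
    simp only [Units.val_zpow_eq_zpow_val, Units.val_mk0] at this
    exact this.symm

section Param

variable {n : ℕ} (u : Kˣ)
  (hord : ∀ z : ℤ, (∃ m : ℤ, (u : K) ^ z = q ^ m) ↔ (n : ℤ) ∣ z)

include hord in
omit [IsUltrametricDist K] [CompleteSpace K] [DecidableEq K] in
/-- the powers `u^k`, `0 < k < n`, are admissible. -/
theorem isAdm_pow {k : ℕ} (hk1 : 1 ≤ k) (hkn : k < n) : IsAdm q ((u : K) ^ k) := by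
  refine ⟨pow_ne_zero _ u.ne_zero, fun m hm => ?_⟩
  have h1 : (u : K) ^ ((k : ℕ) : ℤ) = q ^ (-m) := by
    rw [zpow_natCast, zpow_neg]
    exact eq_inv_of_mul_eq_one_right hm
  have hdvd := (hord k).1 ⟨-m, h1⟩
  have := Int.natCast_dvd_natCast.1 hdvd
  exact absurd (Nat.le_of_dvd (by omega) this) (by omega)

include hord in
/-- `x (k • P u) = X q (u^k)` for `0 < k < n`. -/
theorem xOf_nsmul_tateP {k : ℕ} (hk1 : 1 ≤ k) (hkn : k < n) :
    xOf (k • Final.tateP q hq0 hq1 u) = X q ((u : K) ^ k) := by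
  have hadm : IsAdm q ((u ^ k : Kˣ) : K) := by
    rw [Units.val_pow_eq_pow_val]; exact isAdm_pow u hord hk1 hkn
  rw [← FinalN.tateP_pow hq0 hq1, Final.tateP_of_isAdm hq0 hq1 hadm, xOf_some,
    Units.val_pow_eq_pow_val]

include hord in
/-- `veluJP` of `P u` in the parameter. -/
theorem veluJP_tate_param :
    veluJP (tateCurve q) n (Final.tateP q hq0 hq1 u) =
      veluJ (tateCurve q) n (fun k => X q ((u : K) ^ k)) := by
  unfold veluJP
  exact veluJ_congr _ fun k hk1 hkn => xOf_nsmul_tateP hq0 hq1 u hord hk1 hkn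

variable [CharZero K]

include hord in
/-- **the Vélu quotient of `E_q` by the cyclic subgroup `⟨P u⟩` of order `n` is `E_s`.** -/
theorem veluJP_tate_cyclic (hn : 0 < n) :
    ∃ (N M : ℕ) (s : K), N * M = n ∧ 0 < N ∧ 0 < M ∧ s ≠ 0 ∧ ‖s‖ < 1 ∧ s ^ M = q ^ N ∧
      (∀ e' : ℤ, (u : K) ^ n = q ^ e' → N = Int.gcd e' n) ∧
      veluJP (tateCurve q) n (Final.tateP q hq0 hq1 u) = T6.jq s ∧
      ‖veluJP (tateCurve q) n (Final.tateP q hq0 hq1 u)‖ = ‖s‖⁻¹ := by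
  obtain ⟨N, M, s, hNM, hN, hM, hs0, hs1, hsM, hgcd, -, -, -, -, hj⟩ :=
    T5.velu_cyclic_ev hq0 hq1 hn u.ne_zero hord
  have hJ : veluJP (tateCurve q) n (Final.tateP q hq0 hq1 u) = T6.jq s := by
    rw [veluJP_tate_param hq0 hq1 u hord]
    exact hj
  exact ⟨N, M, s, hNM, hN, hM, hs0, hs1, hsM, hgcd, hJ, by rw [hJ, T6.norm_jq hs1]⟩

end Param

variable [CharZero K]

/-- the same from the exact order of the point. -/
theorem veluJP_of_addOrderOf {n : ℕ} (hn : 0 < n) (u : Kˣ)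
    (hg : addOrderOf (Final.tateP q hq0 hq1 u) = n) :
    ∃ (N M : ℕ) (s : K), N * M = n ∧ 0 < N ∧ 0 < M ∧ s ≠ 0 ∧ ‖s‖ < 1 ∧ s ^ M = q ^ N ∧
      (∀ e' : ℤ, (u : K) ^ n = q ^ e' → N = Int.gcd e' n) ∧
      veluJP (tateCurve q) n (Final.tateP q hq0 hq1 u) = T6.jq s ∧
      ‖veluJP (tateCurve q) n (Final.tateP q hq0 hq1 u)‖ = ‖s‖⁻¹ :=
  veluJP_tate_cyclic hq0 hq1 u (hord_of_addOrderOf hq0 hq1 u hg) hn

/-- **[CAN]**: a generator of `P(μ_n)`. -/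
theorem veluJP_can {n : ℕ} (hn : 0 < n) {ζ : Kˣ} (hζ : (ζ : K) ^ n = 1) (b : ℕ)
    (hg : addOrderOf (Final.tateP q hq0 hq1 (ζ ^ b)) = n) :
    veluJP (tateCurve q) n (Final.tateP q hq0 hq1 (ζ ^ b)) = T6.jq (q ^ n) ∧
      ‖veluJP (tateCurve q) n (Final.tateP q hq0 hq1 (ζ ^ b))‖ = (‖q‖ ^ n)⁻¹ := by
  obtain ⟨N, M, s, hNM, hN, hM, hs0, hs1, hsM, hgcd, hJ, hnorm⟩ :=
    veluJP_of_addOrderOf hq0 hq1 hn (ζ ^ b) hg
  have h1 : ((ζ ^ b : Kˣ) : K) ^ n = q ^ (0 : ℤ) := by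
    rw [Units.val_pow_eq_pow_val, ← pow_mul, mul_comm, pow_mul, hζ, one_pow, zpow_zero]
  have hNn : N = n := by
    rw [hgcd 0 h1, Int.gcd_zero_left, Int.natAbs_natCast]
  have hM1 : M = 1 := by
    rw [hNn] at hNM
    exact Nat.eq_of_mul_eq_mul_left hn (by rw [hNM, mul_one])
  rw [hM1, pow_one, hNn] at hsM
  rw [hJ, hsM]
  refine ⟨rfl, ?_⟩
  rw [T6.norm_jq (by rw [← hsM]; exact hs1), norm_pow]

/-- **[MIX]**: `u = ζ^b t₁^e`, `ζ^(p^(k+1)) = 1`, `t₁^p = q`, `p ∤ e`. -/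
theorem veluJP_mix {p k : ℕ} (hp : p.Prime) {ζ t₁ : Kˣ} (hζ : (ζ : K) ^ (p ^ (k + 1)) = 1)
    (ht₁ : t₁ ^ p = Units.mk0 q hq0) (b : ℕ) {e : ℕ} (he : ¬ p ∣ e)
    (hg : addOrderOf (Final.tateP q hq0 hq1 (ζ ^ b * t₁ ^ e)) = p ^ (k + 1)) :
    ∃ s : K, s ≠ 0 ∧ ‖s‖ < 1 ∧ s ^ p = q ^ (p ^ k) ∧
      veluJP (tateCurve q) (p ^ (k + 1)) (Final.tateP q hq0 hq1 (ζ ^ b * t₁ ^ e)) = T6.jq s ∧
      ‖veluJP (tateCurve q) (p ^ (k + 1)) (Final.tateP q hq0 hq1 (ζ ^ b * t₁ ^ e))‖ ^ p =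
        (‖q‖ ^ (p ^ k))⁻¹ := by
  have hn : 0 < p ^ (k + 1) := pow_pos hp.pos _
  obtain ⟨N, M, s, hNM, hN, hM, hs0, hs1, hsM, hgcd, hJ, hnorm⟩ :=
    veluJP_of_addOrderOf hq0 hq1 hn (ζ ^ b * t₁ ^ e) hg
  have ht₁' : (t₁ : K) ^ p = q := by
    have := congrArg (fun w : Kˣ => (w : K)) ht₁
    simpa [Units.val_pow_eq_pow_val] using this
  have h1 : ((ζ ^ b * t₁ ^ e : Kˣ) : K) ^ (p ^ (k + 1)) = q ^ (((e * p ^ k : ℕ) : ℤ)) := by
    rw [Units.val_mul, Units.val_pow_eq_pow_val, Units.val_pow_eq_pow_val, mul_pow, ← pow_mul,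
      mul_comm b, pow_mul, hζ, one_pow, one_mul, zpow_natCast, ← ht₁', ← pow_mul, ← pow_mul]
    congr 1
    rw [pow_succ]; ring
  have hNp : N = p ^ k := by
    rw [hgcd _ h1, Int.gcd_natCast_natCast, pow_succ, mul_comm (p ^ k) p, Nat.gcd_mul_right]
    have hcop : Nat.gcd e p = 1 := by
      rw [Nat.gcd_comm]; exact (Nat.Prime.coprime_iff_not_dvd hp).2 he
    rw [hcop, one_mul]
  have hMp : M = p := by
    rw [hNp, pow_succ] at hNM
    exact Nat.eq_of_mul_eq_mul_left (pow_pos hp.pos k) hNM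
  rw [hMp, hNp] at hsM
  refine ⟨s, hs0, hs1, hsM, hJ, ?_⟩
  rw [hnorm, inv_pow, ← norm_pow, hsM, norm_pow]

/-- **(PAIR b), Tate side**: `g` of exact order `p^(k+1)` on `E_q` with `p • g` in the zero
component: either `g` has a unit parameter and the quotient is `E_{q^(p^(k+1))}` [CAN], or `g`
has no unit parameter and the quotient is `E_s` with `s^p = q^(p^k)` [MIX]. -/
theorem veluJP_exact_order {p k : ℕ} (hp : p.Prime) {ζ t : Kˣ}
    (hζ : IsPrimitiveRoot (ζ : K) (p ^ (k + 1))) (ht : t ^ (p ^ (k + 1)) = Units.mk0 q hq0)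
    {g : (tateCurve q).toAffine.Point} (hord : addOrderOf g = p ^ (k + 1))
    (hE0 : ∃ u : Kˣ, ‖(u : K)‖ = 1 ∧ p • g = Final.tateP q hq0 hq1 u) :
    ((∃ u : Kˣ, ‖(u : K)‖ = 1 ∧ g = Final.tateP q hq0 hq1 u) ∧
        veluJP (tateCurve q) (p ^ (k + 1)) g = T6.jq (q ^ (p ^ (k + 1))) ∧
        ‖veluJP (tateCurve q) (p ^ (k + 1)) g‖ = (‖q‖ ^ (p ^ (k + 1)))⁻¹) ∨
      ((¬ ∃ u : Kˣ, ‖(u : K)‖ = 1 ∧ g = Final.tateP q hq0 hq1 u) ∧
        ∃ s : K, s ≠ 0 ∧ ‖s‖ < 1 ∧ s ^ p = q ^ (p ^ k) ∧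
          veluJP (tateCurve q) (p ^ (k + 1)) g = T6.jq s ∧
          ‖veluJP (tateCurve q) (p ^ (k + 1)) g‖ ^ p = (‖q‖ ^ (p ^ k))⁻¹) := by
  have hn : p ^ (k + 1) ≠ 0 := pow_ne_zero _ hp.ne_zero
  rcases CyclicN.exact_order_cases hq0 hq1 hp hζ ht hord hE0 with
    ⟨b, -, -, rfl⟩ | ⟨b, e, -, he0, hep, -, rfl⟩
  · left
    refine ⟨⟨ζ ^ b, ?_, rfl⟩, veluJP_can hq0 hq1 (pow_pos hp.pos _) hζ.pow_eq_one b hord⟩
    rw [Units.val_pow_eq_pow_val, norm_pow, TatePlugN.norm_zeta hn hζ, one_pow]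
  · right
    have hpe : ¬ p ∣ e := fun h => absurd (Nat.le_of_dvd he0 h) (by omega)
    refine ⟨?_, veluJP_mix hq0 hq1 hp hζ.pow_eq_one (CyclicN.t₁_pow hq0 ht) b hpe hord⟩
    rintro ⟨u, hu, hPu⟩
    -- a unit parameter forces `p^(k+1) ∣ p^k * e`
    have h1 : (ζ ^ b * (t ^ p ^ k) ^ e : Kˣ) = ζ ^ b * t ^ (p ^ k * e) := by rw [pow_mul]
    rw [h1] at hPu
    have hdvd := CyclicN.dvd_of_nsmul_unit hq0 hq1 hn hζ ht 1 b (p ^ k * e)
      ⟨u, hu, by rw [one_smul]; exact hPu⟩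
    rw [one_mul, pow_succ] at hdvd
    exact hpe ((Nat.mul_dvd_mul_iff_left (pow_pos hp.pos k)).1 hdvd)

end Fermat.Agent.GZ.Tate.Velu.LocalN
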