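/-
GATE-Z (S15) / [MOD-beta] glue (helper43): the Vélu data of `(tateCurve q, ⟨Q⟩)`, `Q` of order `p`,
are the Vélu data computed from the `x`-coordinates `X q (ζ^k)` (case `⟨Q⟩ = P(μ_p)`) resp.
`X q (t^k)`, `t ^ p = q` (case `⟨Q⟩ = ⟨P t⟩`), `k = 1, …, p - 1`.

`T3/TatePlug.sum_dichotomy_x` at `g := tR`, `g := sR`; binders `hns`, `hgen`, `hΔ` as there.
The right-hand sides are what (T5) evaluates: `(p⁴ e₄(q^p), -p⁶ e₆(q^p))` resp. `(e₄(t), -e₆(t))`.
-/
import Fermat.Agent.GZ.Tate.Velu.Transport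
import Fermat.Agent.GZ.Tate.T3.TatePlug

set_option autoImplicit false

noncomputable section

namespace Fermat.Agent.GZ.Tate.Velu

open WeierstrassCurve Fermat.Agent.GZ.Tate Fermat.Agent.GZ.Tate.T2 Fermat.Agent.GZ.Tate.T2.Hom
  Fermat.Agent.GZ.Tate.T3

universe u

variable {K : Type u} [NormedField K]

theorem xCoord_eq_xOf {W : WeierstrassCurve K} (P : W.toAffine.Point) :
    TatePlug.xCoord P = xOf P := by
  rcases P with _ | _ <;> rfl

variable [IsUltrametricDist K] [CompleteSpace K] [CharZero K] [DecidableEq K]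
variable (q : K)
variable (hns : ∀ u : K, IsAdm q u → (tateCurve q).toAffine.Nonsingular (X q u) (Y q u))
variable (hgen : ∀ u v : K, IsAdm q u → IsAdm q v → IsAdm q (u * v) → X q u ≠ X q v →
  ColRel (X q u) (Y q u) (X q v) (Y q v) (X q (u * v)) (Y q (u * v)) ∧
    SumRel (X q u) (Y q u) (X q v) (Y q v) (X q (u * v)))
variable (hq0 : q ≠ 0) (hq1 : ‖q‖ < 1) (hΔ : (tateCurve q).Δ ≠ 0)
variable {p : ℕ} [hp : Fact p.Prime] {ζ t₀ : Kˣ} (hζ : IsPrimitiveRoot (ζ : K) p)
  (ht₀ : t₀ ^ p = Units.mk0 q hq0)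

include hgen hq1 hΔ hζ ht₀ in
/-- **Vélu dichotomy on the Tate curve.** -/
theorem velu_dichotomy {Q : (tateCurve q).toAffine.Point} (hQ0 : Q ≠ 0) (hQ : p • Q = 0) :
    ((∃ j : ℕ, ¬ p ∣ j ∧ Q = tateP q hns (ζ ^ j)) ∧
        veluC4 (tateCurve q) p (fun k => xOf (k • Q)) =
          veluC4 (tateCurve q) p (fun k => X q ((ζ : K) ^ k)) ∧
        veluC6 (tateCurve q) p (fun k => xOf (k • Q)) =
          veluC6 (tateCurve q) p (fun k => X q ((ζ : K) ^ k)) ∧
        veluJP (tateCurve q) p Q = veluJ (tateCurve q) p (fun k => X q ((ζ : K) ^ k))) ∨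
      ∃ i k : ℕ, 0 < k ∧ k < p ∧ Q = tateP q hns (ζ ^ i * t₀ ^ k) ∧
        ∃ t : Kˣ, (t : K) ^ p = q ∧ (∃ m : ℕ, ¬ p ∣ m ∧ m • Q = tateP q hns t) ∧
          veluC4 (tateCurve q) p (fun k => xOf (k • Q)) =
            veluC4 (tateCurve q) p (fun k => X q ((t : K) ^ k)) ∧
          veluC6 (tateCurve q) p (fun k => xOf (k • Q)) =
            veluC6 (tateCurve q) p (fun k => X q ((t : K) ^ k)) ∧
          veluJP (tateCurve q) p Q = veluJ (tateCurve q) p (fun k => X q ((t : K) ^ k)) := by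
  rcases TatePlug.sum_dichotomy_x (M := K) q hns hgen hq0 hq1 hΔ hζ ht₀ hQ0 hQ with
    ⟨hj, hsum⟩ | ⟨i, k, hk0, hkp, hQik, t, ht, hm, hsum⟩
  · left
    have h4 : veluC4 (tateCurve q) p (fun k => xOf (k • Q)) =
        veluC4 (tateCurve q) p (fun k => X q ((ζ : K) ^ k)) := by
      have := hsum (tR (tateCurve q))
      simp only [xCoord_eq_xOf] at this
      simp only [veluC4, this]
    have h6 : veluC6 (tateCurve q) p (fun k => xOf (k • Q)) =
        veluC6 (tateCurve q) p (fun k => X q ((ζ : K) ^ k)) := by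
      have := hsum (sR (tateCurve q))
      simp only [xCoord_eq_xOf] at this
      simp only [veluC6, this]
    refine ⟨hj, h4, h6, ?_⟩
    simp only [veluJP, veluJ, h4, h6]
  · right
    have h4 : veluC4 (tateCurve q) p (fun k => xOf (k • Q)) =
        veluC4 (tateCurve q) p (fun k => X q ((t : K) ^ k)) := by
      have := hsum (tR (tateCurve q))
      simp only [xCoord_eq_xOf] at this
      simp only [veluC4, this]
    have h6 : veluC6 (tateCurve q) p (fun k => xOf (k • Q)) =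
        veluC6 (tateCurve q) p (fun k => X q ((t : K) ^ k)) := by
      have := hsum (sR (tateCurve q))
      simp only [xCoord_eq_xOf] at this
      simp only [veluC6, this]
    refine ⟨i, k, hk0, hkp, hQik, t, ht, hm, h4, h6, ?_⟩
    simp only [veluJP, veluJ, h4, h6]

end Fermat.Agent.GZ.Tate.Velu
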